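/-
S15 design cell (helper29): the local lemma at an ODD prime `r`, trivial step (L3).

A finite Galois module `E` killed by `r` with a Hopf order at `r`: if `σ` lies in the inertia
group at a place `P` over `r` and the difference `σ z - z` is fixed by that inertia group, then
`σ z = z`.  (So a step character `ψ` with `σ z - z = ψ(σ) v`, `v` inertia-fixed, is unramified
at `r`.)

Inputs from main: `IsHopfOrder.exists_isPOrder`, `IsPOrder.act_sub_mem_conn` (inertia acts
trivially on `V / V⁰`), `IsPOrder.eq_zero_of_mem_conn_of_fixed` (odd `r`: an inertia-fixed point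
of `V⁰` is zero).
-/
import Mathlib
import Fermat.Agent.Lib.FinFlat.Mult
import Fermat.Agent.Lib.FinFlat.PBridge
import Fermat.Agent.Lib.FinFlat.OrderOps

set_option autoImplicit false

namespace Fermat.Agent.S15P.Loc2.OddStep29

open Fermat.Agent.Lib.FinFlat Fermat.Agent.PT.Levels

local notation "Qb" => AlgebraicClosure ℚ
local notation "GQ" => (AlgebraicClosure ℚ ≃ₐ[ℚ] AlgebraicClosure ℚ)

/-- **L3, `r` odd, trivial step.** A difference `σ z - z` (`σ` in inertia at `r`) which is fixed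
by the inertia group vanishes. -/
theorem act_eq_of_diff_fixed_odd {r : ℕ} (hr : r.Prime) (hr2 : r ≠ 2) {E : Type} [AddCommGroup E]
    [Finite E] {act : GQ → E → E} (hE : HasHopfOrder r act) (hrE : ∀ v : E, r • v = 0)
    (P : ValuationSubring Qb) (hP : P.LiesOverPrime r) (σ : GQ) (hσ : σ ∈ P.inertiaSubgroupIn ℚ)
    (z : E) (hfix : ∀ τ ∈ P.inertiaSubgroupIn ℚ, act τ (act σ z - z) = act σ z - z) :
    act σ z = z := by
  obtain ⟨B₀, hB₀⟩ := hE
  have : Fact r.Prime := ⟨hr⟩
  obtain ⟨B, hB, -⟩ := hB₀.exists_isPOrder P hP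
  have h1 : act σ z - z ∈ hB.conn :=
    hB.act_sub_mem_conn (Subgroup.mem_top σ) ((mem_inertiaSubgroupIn_iff P σ).mp hσ).2 z
  have h2 : act σ z - z = 0 :=
    IsPOrder.eq_zero_of_mem_conn_of_fixed hr hr2 hP hB le_top hrE
      (fun τ _ => hB₀.act_zero τ) h1 hfix
  exact sub_eq_zero.mp h2

/-- Character form: if `σ z - z = n • v` with `v` fixed by inertia (and the action additive),
then `σ z = z`. -/
theorem act_eq_of_diff_eq_nsmul_odd {r : ℕ} (hr : r.Prime) (hr2 : r ≠ 2) {E : Type}
    [AddCommGroup E] [Finite E] {act : GQ → E → E} (hE : HasHopfOrder r act)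
    (hrE : ∀ v : E, r • v = 0) (P : ValuationSubring Qb) (hP : P.LiesOverPrime r) (σ : GQ)
    (hσ : σ ∈ P.inertiaSubgroupIn ℚ) (z v : E) (n : ℕ)
    (hv : ∀ τ ∈ P.inertiaSubgroupIn ℚ, act τ v = v) (hz : act σ z - z = n • v) :
    act σ z = z := by
  refine act_eq_of_diff_fixed_odd hr hr2 hE hrE P hP σ hσ z fun τ hτ => ?_
  obtain ⟨B₀, hB₀⟩ := hE
  have hadd : ∀ (k : ℕ) (w : E), act τ (k • w) = k • act τ w := by
    intro k w
    induction k with
    | zero => rw [zero_nsmul, zero_nsmul, hB₀.act_zero]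
    | succ k ih => rw [succ_nsmul, succ_nsmul, hB₀.act_add, ih]
  rw [hz, hadd, hv τ hτ]

end Fermat.Agent.S15P.Loc2.OddStep29
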