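/-
S15 design cell (helper29): the local lemma at `2` — "(A)" of the count lemma.

A finite Galois module killed by `2` with a Hopf order at `2`, on which the inertia group at a
place `P` over `2` acts through `Gal(K(θ)/K)` with `θ² = 2·unit` (a "très ramifié" quadratic
character), has trivial inertia action.

Inputs from main: `IsHopfOrder.exists_isPOrder`, `IsPOrder.eq_of_forall_congr` (Fontaine's
injectivity, valid at `p = 2`), `exists_zpow_valuation_eq_of_inertia_fixed` ([UNR]).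
-/
import Mathlib
import Fermat.Agent.Lib.FinFlat.Fontaine
import Fermat.Agent.Lib.FinFlat.Unr
import Fermat.Agent.Lib.FinFlat.PBridge
import Fermat.Agent.Lib.FinFlat.OrderOps

set_option autoImplicit false

namespace Fermat.Agent.S15P.Loc2.TresRam29

open Fermat.Agent.Lib.FinFlat

local notation "Qb" => AlgebraicClosure ℚ
local notation "GQ" => (AlgebraicClosure ℚ ≃ₐ[ℚ] AlgebraicClosure ℚ)

/-- Parity of valuations: if `a`, `b` are fixed by inertia, `v(θ)² = v(2)` and `a + b θ` is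
integral, then `b` is integral. -/
theorem mem_of_add_mul_mem (P : ValuationSubring Qb) (hP : P.LiesOverPrime 2) {θ a b : Qb}
    (hθ : P.valuation θ ^ 2 = P.valuation 2)
    (ha : ∀ σ ∈ P.inertiaSubgroupIn ℚ, σ a = a) (hb : ∀ σ ∈ P.inertiaSubgroupIn ℚ, σ b = b)
    (hab : a + b * θ ∈ P) : b ∈ P := by
  by_contra hbP
  have hb0 : b ≠ 0 := fun h => hbP (h ▸ P.zero_mem)
  have hw1 : P.valuation ((2 : ℕ) : Qb) < 1 := P.mem_nonunits_iff.mp hP
  have h2 : ((2 : ℕ) : Qb) = 2 := by norm_num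
  have hw0 : P.valuation ((2 : ℕ) : Qb) ≠ 0 := (Valuation.ne_zero_iff _).2 (by norm_num)
  rw [← h2] at hθ
  set w := P.valuation ((2 : ℕ) : Qb) with hw
  obtain ⟨n, hn⟩ := exists_zpow_valuation_eq_of_inertia_fixed Nat.prime_two P hP hb hb0
  rw [map_zpow₀, ← hw] at hn
  have hvb : 1 < P.valuation b := by
    rw [← not_le, P.valuation_le_one_iff]; exact hbP
  -- `n < 0`
  have hn0 : n < 0 := by
    by_contra hcon
    push Not at hcon
    obtain ⟨k, rfl⟩ : ∃ k : ℕ, n = (k : ℤ) := ⟨n.toNat, by omega⟩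
    rw [hn, zpow_natCast] at hvb
    exact absurd hvb (not_lt.mpr (pow_le_one₀ zero_le hw1.le))
  -- `v(b θ) > 1`
  have hbθ2 : (P.valuation (b * θ)) ^ 2 = w ^ (2 * n + 1) := by
    rw [map_mul, mul_pow, hθ, hn, ← zpow_natCast (w ^ n) 2, ← zpow_mul, zpow_add_one₀ hw0]
    congr 2
    push_cast; ring
  have hbθ : 1 < P.valuation (b * θ) := by
    by_contra hcon
    push Not at hcon
    have h1 : (P.valuation (b * θ)) ^ 2 ≤ 1 := pow_le_one₀ zero_le hcon
    rw [hbθ2] at h1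
    obtain ⟨k, hk⟩ : ∃ k : ℕ, 2 * n + 1 = -((k : ℤ) + 1) := ⟨(-(2 * n + 1) - 1).toNat, by omega⟩
    rw [hk, zpow_neg] at h1
    have h3 : w ^ ((k : ℤ) + 1) < 1 := by
      have : w ^ ((k : ℤ) + 1) = w ^ (k + 1) := by
        rw [← zpow_natCast]; push_cast; rfl
      rw [this]
      exact pow_lt_one₀ zero_le hw1 (by omega)
    have h4 : w ^ ((k : ℤ) + 1) ≠ 0 := zpow_ne_zero _ hw0
    have h5 : 1 < (w ^ ((k : ℤ) + 1))⁻¹ := (one_lt_inv₀ (zero_lt_iff.mpr h4)).2 h3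
    exact absurd h1 (not_le.mpr h5)
  -- `v(a) = v(b θ)`
  have hva : P.valuation a = P.valuation (b * θ) := by
    have h1 : P.valuation (a + b * θ) ≤ 1 := (P.valuation_le_one_iff _).mpr hab
    have h2 : P.valuation (a + b * θ) < P.valuation (b * θ) := lt_of_le_of_lt h1 hbθ
    have e : a = (a + b * θ) + -(b * θ) := by ring
    have h3 : P.valuation (-(b * θ)) = P.valuation (b * θ) := Valuation.map_neg _ _
    rw [e, Valuation.map_add_eq_of_lt_right _ (by rw [h3]; exact h2), h3]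
  have ha0 : a ≠ 0 := by
    rintro rfl
    rw [map_zero] at hva
    exact absurd hbθ (by rw [← hva]; exact not_lt.mpr zero_le)
  obtain ⟨m, hm⟩ := exists_zpow_valuation_eq_of_inertia_fixed Nat.prime_two P hP ha ha0
  rw [map_zpow₀, ← hw] at hm
  have hsq : w ^ (2 * m) = w ^ (2 * n + 1) := by
    rw [← hbθ2, ← hva, hm, ← zpow_natCast (w ^ m) 2, ← zpow_mul]
    congr 1
    push_cast; ring
  -- `w ^ k = 1` with `k ≠ 0` is impossible
  have hk : w ^ (2 * m - (2 * n + 1)) = 1 := by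
    rw [zpow_sub₀ hw0, hsq, div_self (zpow_ne_zero _ hw0)]
  have hk0 : 2 * m - (2 * n + 1) ≠ 0 := by omega
  rcases lt_or_gt_of_ne hk0 with hneg | hpos
  · obtain ⟨k, hk'⟩ : ∃ k : ℕ, 2 * m - (2 * n + 1) = -((k : ℤ) + 1) :=
      ⟨(-(2 * m - (2 * n + 1)) - 1).toNat, by omega⟩
    rw [hk', zpow_neg, inv_eq_one] at hk
    have : w ^ ((k : ℤ) + 1) = w ^ (k + 1) := by
      rw [← zpow_natCast]; push_cast; rfl
    rw [this] at hk
    exact absurd hk (ne_of_lt (pow_lt_one₀ zero_le hw1 (by omega)))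
  · obtain ⟨k, hk'⟩ : ∃ k : ℕ, 2 * m - (2 * n + 1) = ((k : ℤ) + 1) :=
      ⟨(2 * m - (2 * n + 1) - 1).toNat, by omega⟩
    rw [hk'] at hk
    have : w ^ ((k : ℤ) + 1) = w ^ (k + 1) := by
      rw [← zpow_natCast]; push_cast; rfl
    rw [this] at hk
    exact absurd hk (ne_of_lt (pow_lt_one₀ zero_le hw1 (by omega)))

/-- **(A), the local lemma at `2`.**  A finite Galois module killed by `2` with a Hopf order at
`2`, on which the inertia group at `P ∣ 2` acts through `Gal(K(θ)/K)` with `v(θ²) = v(2)`, has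
trivial inertia action. -/
theorem inertia_trivial_of_tres_ramifie {E : Type} [AddCommGroup E] [Finite E]
    {act : GQ → E → E} (hE : HasHopfOrder 2 act) (h2 : ∀ v : E, 2 • v = 0)
    (P : ValuationSubring Qb) (hP : P.LiesOverPrime 2)
    (θ : Qb) (hθ : P.valuation θ ^ 2 = P.valuation 2)
    (hθσ : ∀ σ ∈ P.inertiaSubgroupIn ℚ, σ θ = θ ∨ σ θ = -θ)
    (hact : ∀ σ ∈ P.inertiaSubgroupIn ℚ, σ θ = θ → ∀ v, act σ v = v) :
    ∀ σ ∈ P.inertiaSubgroupIn ℚ, ∀ v, act σ v = v := by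
  intro σ hσ v
  rcases hθσ σ hσ with hσθ | hσθ
  · exact hact σ hσ hσθ v
  obtain ⟨B₀, hB₀⟩ := hE
  have : Fact (Nat.Prime 2) := ⟨Nat.prime_two⟩
  obtain ⟨B, hB, -⟩ := hB₀.exists_isPOrder P hP
  have hw1 : P.valuation ((2 : ℕ) : Qb) < 1 := P.mem_nonunits_iff.mp hP
  have h2' : ((2 : ℕ) : Qb) = 2 := by norm_num
  rw [h2'] at hw1
  have hvθ : P.valuation θ < 1 := by
    by_contra hcon
    push Not at hcon
    have : 1 ≤ P.valuation θ ^ 2 := one_le_pow₀ hcon
    rw [hθ] at this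
    exact absurd hw1 (not_lt.mpr this)
  have hθ0 : θ ≠ 0 := by
    rintro rfl
    rw [map_zero, zero_pow (by norm_num)] at hθ
    exact (Valuation.ne_zero_iff _).2 (two_ne_zero) hθ.symm
  have hθP : θ ∈ P := (P.valuation_le_one_iff _).mp hvθ.le
  have hθP' : θ⁻¹ ∉ P := by
    rw [← P.valuation_le_one_iff, map_inv₀, not_le]
    exact (one_lt_inv₀ (zero_lt_iff.mpr ((Valuation.ne_zero_iff _).2 hθ0))).2 hvθ
  refine hB.eq_of_forall_congr Nat.prime_two h2 (c := 2 * θ)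
    ⟨θ, hθP, hθP', by norm_num⟩ ?_
  intro f hfB hf
  have hfτ : ∀ (τ : GQ) (w : E), f (act τ w) = τ (f w) := fun τ w => hf τ (Subgroup.mem_top τ) w
  rw [hfτ σ v]
  set α := f v with hα
  -- elements of inertia fixing `θ` fix `α`
  have hfix : ∀ ρ ∈ P.inertiaSubgroupIn ℚ, ρ θ = θ → ρ α = α := by
    intro ρ hρ hρθ
    rw [hα, ← hfτ ρ v, hact ρ hρ hρθ v]
  have hσinv : σ⁻¹ θ = -θ := by
    have h1 : σ⁻¹ (σ θ) = θ := by
      rw [← AlgEquiv.mul_apply, inv_mul_cancel, AlgEquiv.one_apply]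
    rw [hσθ, map_neg] at h1
    linear_combination (-1 : Qb) * h1
  -- every `τ ∈ I` fixes or swaps `α`, `σ α`
  have key : ∀ τ ∈ P.inertiaSubgroupIn ℚ,
      (τ θ = θ ∧ τ α = α ∧ τ (σ α) = σ α) ∨ (τ θ = -θ ∧ τ α = σ α ∧ τ (σ α) = α) := by
    intro τ hτ
    rcases hθσ τ hτ with hτθ | hτθ
    · refine Or.inl ⟨hτθ, hfix τ hτ hτθ, ?_⟩
      have hρ : σ⁻¹ * τ * σ ∈ P.inertiaSubgroupIn ℚ :=
        mul_mem (mul_mem (inv_mem hσ) hτ) hσ
      have hρθ : (σ⁻¹ * τ * σ) θ = θ := by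
        rw [AlgEquiv.mul_apply, AlgEquiv.mul_apply, hσθ, map_neg, hτθ, map_neg, hσinv, neg_neg]
      have h1 := hfix _ hρ hρθ
      have h2 : σ ((σ⁻¹ * τ * σ) α) = τ (σ α) := by
        rw [AlgEquiv.mul_apply, AlgEquiv.mul_apply, ← AlgEquiv.mul_apply σ σ⁻¹, mul_inv_cancel,
          AlgEquiv.one_apply]
      rw [← h2, h1]
    · refine Or.inr ⟨hτθ, ?_, ?_⟩
      · have hρ : σ⁻¹ * τ ∈ P.inertiaSubgroupIn ℚ := mul_mem (inv_mem hσ) hτ
        have hρθ : (σ⁻¹ * τ) θ = θ := by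
          rw [AlgEquiv.mul_apply, hτθ, map_neg, hσinv, neg_neg]
        have h1 := hfix _ hρ hρθ
        have h2 : σ ((σ⁻¹ * τ) α) = τ α := by
          rw [AlgEquiv.mul_apply, ← AlgEquiv.mul_apply σ σ⁻¹, mul_inv_cancel, AlgEquiv.one_apply]
        rw [← h2, h1]
      · have hρ : τ * σ ∈ P.inertiaSubgroupIn ℚ := mul_mem hτ hσ
        have hρθ : (τ * σ) θ = θ := by
          rw [AlgEquiv.mul_apply, hσθ, map_neg, hτθ, neg_neg]
        have h1 := hfix _ hρ hρθ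
        rw [AlgEquiv.mul_apply] at h1
        exact h1
  have h2ne : (2 : Qb) ≠ 0 := two_ne_zero
  -- the coordinates
  have ha : ∀ τ ∈ P.inertiaSubgroupIn ℚ, τ ((α + σ α) / 2) = (α + σ α) / 2 := by
    intro τ hτ
    rcases key τ hτ with ⟨-, h1, h2⟩ | ⟨-, h1, h2⟩
    · rw [map_div₀, map_add, h1, h2, map_ofNat]
    · rw [map_div₀, map_add, h1, h2, map_ofNat, add_comm]
  have hb : ∀ τ ∈ P.inertiaSubgroupIn ℚ, τ ((α - σ α) / (2 * θ)) = (α - σ α) / (2 * θ) := by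
    intro τ hτ
    rcases key τ hτ with ⟨h0, h1, h2⟩ | ⟨h0, h1, h2⟩
    · rw [map_div₀, map_sub, map_mul, h0, h1, h2, map_ofNat]
    · rw [map_div₀, map_sub, map_mul, h0, h1, h2, map_ofNat]
      field_simp
      ring
  have hαP : (α + σ α) / 2 + (α - σ α) / (2 * θ) * θ ∈ P := by
    have e : (α + σ α) / 2 + (α - σ α) / (2 * θ) * θ = α := by
      field_simp
      ring
    rw [e]
    exact hB.integral f hfB v
  have hbP := mem_of_add_mul_mem P hP hθ ha hb hαP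
  refine ⟨-((α - σ α) / (2 * θ)), neg_mem hbP, ?_⟩
  field_simp
  ring

/-- **(A), character form** (the shape used by `(H1)` of the count lemma): if the inertia group at
`P ∣ 2` acts on a module killed by `2` with a Hopf order at `2` exactly through the quadratic
character cut out by `θ` (`σ` acts trivially iff `σ θ = θ`), then `θ²` is not `2·unit`. -/
theorem valuation_sq_ne_of_hopfOrder {E : Type} [AddCommGroup E] [Finite E]
    {act : GQ → E → E} (hE : HasHopfOrder 2 act) (h2 : ∀ v : E, 2 • v = 0)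
    (P : ValuationSubring Qb) (hP : P.LiesOverPrime 2) (θ : Qb)
    (hθσ : ∀ σ ∈ P.inertiaSubgroupIn ℚ, σ θ = θ ∨ σ θ = -θ)
    (hact : ∀ σ ∈ P.inertiaSubgroupIn ℚ, (σ θ = θ ↔ ∀ v, act σ v = v)) :
    P.valuation θ ^ 2 ≠ P.valuation 2 := by
  intro hθ
  have htriv := inertia_trivial_of_tres_ramifie hE h2 P hP θ hθ hθσ
    (fun σ hσ h => (hact σ hσ).mp h)
  have hfix : ∀ σ ∈ P.inertiaSubgroupIn ℚ, σ θ = θ := fun σ hσ => (hact σ hσ).mpr (htriv σ hσ)
  have hw1 : P.valuation ((2 : ℕ) : Qb) < 1 := P.mem_nonunits_iff.mp hP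
  have h2' : ((2 : ℕ) : Qb) = 2 := by norm_num
  have hw0 : P.valuation ((2 : ℕ) : Qb) ≠ 0 := (Valuation.ne_zero_iff _).2 (by norm_num)
  have hθ0 : θ ≠ 0 := by
    rintro rfl
    rw [map_zero, zero_pow (by norm_num)] at hθ
    exact (Valuation.ne_zero_iff _).2 (two_ne_zero) hθ.symm
  obtain ⟨n, hn⟩ := exists_zpow_valuation_eq_of_inertia_fixed Nat.prime_two P hP hfix hθ0
  rw [← h2'] at hθ
  set w := P.valuation ((2 : ℕ) : Qb) with hw
  rw [map_zpow₀, ← hw] at hn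
  have hk : w ^ (2 * n - 1) = 1 := by
    have e : w ^ (2 * n) = w := by
      calc w ^ (2 * n) = (w ^ n) ^ 2 := by
            rw [← zpow_natCast (w ^ n) 2, ← zpow_mul]
            congr 1
            push_cast; ring
        _ = P.valuation θ ^ 2 := by rw [hn]
        _ = w := hθ
    rw [zpow_sub₀ hw0, e, zpow_one, div_self hw0]
  have hk0 : 2 * n - 1 ≠ 0 := by omega
  rcases lt_or_gt_of_ne hk0 with hneg | hpos
  · obtain ⟨k, hk'⟩ : ∃ k : ℕ, 2 * n - 1 = -((k : ℤ) + 1) := ⟨(-(2 * n - 1) - 1).toNat, by omega⟩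
    rw [hk', zpow_neg, inv_eq_one] at hk
    have : w ^ ((k : ℤ) + 1) = w ^ (k + 1) := by
      rw [← zpow_natCast]; push_cast; rfl
    rw [this] at hk
    exact absurd hk (ne_of_lt (pow_lt_one₀ zero_le hw1 (by omega)))
  · obtain ⟨k, hk'⟩ : ∃ k : ℕ, 2 * n - 1 = ((k : ℤ) + 1) := ⟨(2 * n - 1 - 1).toNat, by omega⟩
    rw [hk'] at hk
    have : w ^ ((k : ℤ) + 1) = w ^ (k + 1) := by
      rw [← zpow_natCast]; push_cast; rfl
    rw [this] at hk
    exact absurd hk (ne_of_lt (pow_lt_one₀ zero_le hw1 (by omega)))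

end Fermat.Agent.S15P.Loc2.TresRam29

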